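import Mathlib

/-!
# Eichler integrals by iterated primitives on the unit disc

For `f : ℍ → ℂ` holomorphic, `h`-periodic and zero at `i∞` we construct a function `E` with the
same three properties and `D E = f`, where `D = (2πi)⁻¹ d/dz` is Mathlib's normalised derivative.
-/

open UpperHalfPlane hiding I
open Complex Filter Function Metric
open scoped Real Topology Manifold MatrixGroups ModularForm
open Derivative

set_option autoImplicit false

namespace Fermat.Agent.S22.H50

local notation "𝕢" => Periodic.qParam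

/-- Holomorphic, `h`-periodic functions on the upper half-plane vanishing at `i∞`. -/
structure IsCuspPer (h : ℝ) (f : ℍ → ℂ) : Prop where
  per : Periodic (f ∘ ofComplex) h
  hol : MDiff f
  zero : IsZeroAtImInfty f

theorem hasDerivAt_qParam (h : ℝ) (z : ℂ) :
    HasDerivAt (𝕢 h) (𝕢 h z * (2 * π * I / h)) z := by
  have := (((hasDerivAt_id z).const_mul (2 * π * I)).div_const (h : ℂ)).cexp
  simp only [id_eq, mul_one] at this
  exact this

theorem qParam_add_period {h : ℝ} (hh : h ≠ 0) (z : ℂ) : 𝕢 h (z + h) = 𝕢 h z := by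
  have hh' : (h : ℂ) ≠ 0 := by exact_mod_cast hh
  simp only [Periodic.qParam]
  rw [show 2 * (π : ℂ) * I * (z + h) / h = 2 * π * I * z / h + 2 * π * I by field_simp]
  exact Complex.exp_periodic _

theorem periodic_comp_ofComplex_of_qParam {h : ℝ} (hh : h ≠ 0) (G : ℂ → ℂ) :
    Periodic ((fun τ : ℍ ↦ G (𝕢 h τ)) ∘ ofComplex) h := by
  intro w
  by_cases! hw : 0 < im w
  · have hw' : 0 < im (w + h) := by simp [hw]
    simp only [comp_apply, ofComplex_apply_of_im_pos hw', ofComplex_apply_of_im_pos hw]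
    exact congrArg G (qParam_add_period hh w)
  · have hw' : im (w + h) ≤ 0 := by simpa using hw
    simp [ofComplex_apply_of_im_nonpos hw', ofComplex_apply_of_im_nonpos hw]

/-- Existence of a primitive (with respect to `D`) inside the class `IsCuspPer h`. -/
theorem IsCuspPer.exists_primitive {h : ℝ} (hh : 0 < h) {f : ℍ → ℂ} (hf : IsCuspPer h f) :
    ∃ E : ℍ → ℂ, IsCuspPer h E ∧ D E = f := by
  have hh' : (h : ℂ) ≠ 0 := by exact_mod_cast hh.ne'
  set Φ : ℂ → ℂ := cuspFunction h f with hΦ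
  have hΦdiff : DifferentiableOn ℂ Φ (ball 0 1) :=
    differentiableOn_cuspFunction_ball hh hf.per hf.hol hf.zero.isBoundedAtImInfty
  have hΦ0 : Φ 0 = 0 := by
    rw [hΦ, cuspFunction_apply_zero hh
      (analyticAt_cuspFunction_zero hh hf.per hf.hol hf.zero.isBoundedAtImInfty) hf.per]
    exact hf.zero.valueAtInfty_eq_zero
  have hΨ : DifferentiableOn ℂ (dslope Φ 0) (ball 0 1) :=
    (Complex.differentiableOn_dslope (ball_mem_nhds 0 one_pos)).mpr hΦdiff
  obtain ⟨H₀, hH₀⟩ := hΨ.isExactOn_ball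
  set H : ℂ → ℂ := fun q ↦ H₀ q - H₀ 0 with hH
  have hHd : ∀ q ∈ ball (0 : ℂ) 1, HasDerivAt H (dslope Φ 0 q) q := fun q hq ↦
    (hH₀ q hq).sub_const _
  have hH0 : H 0 = 0 := by simp [hH]
  -- the derivative computation
  have key : ∀ τ : ℍ, HasDerivAt ((fun τ : ℍ ↦ (h : ℂ) * H (𝕢 h τ)) ∘ ofComplex)
      (2 * π * I * f τ) (τ : ℂ) := by
    intro τ
    have hq : 𝕢 h τ ∈ ball (0 : ℂ) 1 := by
      simpa using Periodic.norm_qParam_lt_one hh τ.im_pos
    have hq0 : 𝕢 h (τ : ℂ) ≠ 0 := Periodic.qParam_ne_zero _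
    have h1 : HasDerivAt (fun w : ℂ ↦ (h : ℂ) * H (𝕢 h w))
        (h * (dslope Φ 0 (𝕢 h τ) * (𝕢 h τ * (2 * π * I / h)))) (τ : ℂ) :=
      (((hHd _ hq).comp (τ : ℂ) (hasDerivAt_qParam h τ))).const_mul _
    have h2 : (h : ℂ) * (dslope Φ 0 (𝕢 h τ) * (𝕢 h τ * (2 * π * I / h))) = 2 * π * I * f τ := by
      rw [dslope_of_ne _ hq0, slope_def_field, hΦ0, sub_zero, sub_zero, hΦ,
        eq_cuspFunction τ hh.ne' hf.per]
      field_simp
    rw [h2] at h1
    refine h1.congr_of_eventuallyEq ?_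
    filter_upwards [isOpen_upperHalfPlaneSet.mem_nhds τ.im_pos] with w hw
    simp [comp_apply, ofComplex_apply_of_im_pos hw]
  refine ⟨fun τ ↦ h * H (𝕢 h τ), ?_, ?_⟩
  · refine ⟨periodic_comp_ofComplex_of_qParam hh.ne' (fun q ↦ (h : ℂ) * H q), ?_, ?_⟩
    · rw [UpperHalfPlane.mdifferentiable_iff]
      intro w hw
      have := (key ⟨w, hw⟩).differentiableAt
      exact this.differentiableWithinAt
    · have hcont : ContinuousAt (fun q ↦ (h : ℂ) * H q) 0 :=
        ((hHd 0 (mem_ball_self one_pos)).continuousAt).const_mul _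
      have ht : Tendsto (fun q ↦ (h : ℂ) * H q) (𝓝 0) (𝓝 0) := by
        simpa [hH0] using hcont.tendsto
      exact ht.comp (qParam_tendsto_atImInfty hh)
  · funext τ
    simp only [normalizedDerivOfComplex]
    rw [(key τ).deriv]
    have : (2 * (π : ℂ) * I) ≠ 0 := two_pi_I_ne_zero
    field_simp

/-- Existence of iterated primitives inside the class `IsCuspPer h`. -/
theorem IsCuspPer.exists_iterate_primitive {h : ℝ} (hh : 0 < h) (m : ℕ) {f : ℍ → ℂ}
    (hf : IsCuspPer h f) : ∃ E : ℍ → ℂ, IsCuspPer h E ∧ D^[m] E = f := by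
  induction m generalizing f with
  | zero => exact ⟨f, hf, rfl⟩
  | succ m ih =>
    obtain ⟨E₁, hE₁, hD₁⟩ := hf.exists_primitive hh
    obtain ⟨E, hE, hD⟩ := ih hE₁
    exact ⟨E, hE, by rw [Function.iterate_succ_apply', hD, hD₁]⟩

end Fermat.Agent.S22.H50
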