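import Mathlib
import Fermat.Agent.S22.H50.Primitive

/-!
# Polynomial functions on the upper half-plane and the iterated normalised derivative
-/

open UpperHalfPlane hiding I
open Complex Filter Function Metric Polynomial
open scoped Real Topology Manifold MatrixGroups ModularForm
open Derivative

set_option autoImplicit false

namespace Fermat.Agent.S22.H50

/-! ### Iterates of `D` -/

theorem iterate_D_mdiff (m : ℕ) {F : ℍ → ℂ} (hF : MDiff F) : MDiff (D^[m] F) := by
  induction m with
  | zero => exact hF
  | succ m ih =>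
    rw [Function.iterate_succ_apply']
    exact normalizedDerivOfComplex_mdifferentiable ih

theorem D_zero : D (0 : ℍ → ℂ) = 0 := normalizedDerivOfComplex_const 0

theorem iterate_D_zero (m : ℕ) : D^[m] (0 : ℍ → ℂ) = 0 := by
  induction m with
  | zero => rfl
  | succ m ih => rw [Function.iterate_succ_apply', ih, D_zero]

theorem iterate_D_add (m : ℕ) {F G : ℍ → ℂ} (hF : MDiff F) (hG : MDiff G) :
    D^[m] (F + G) = D^[m] F + D^[m] G := by
  induction m with
  | zero => rfl
  | succ m ih =>
    rw [Function.iterate_succ_apply', Function.iterate_succ_apply', Function.iterate_succ_apply',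
      ih, normalizedDerivOfComplex_add _ _ (iterate_D_mdiff m hF) (iterate_D_mdiff m hG)]

theorem iterate_D_sub (m : ℕ) {F G : ℍ → ℂ} (hF : MDiff F) (hG : MDiff G) :
    D^[m] (F - G) = D^[m] F - D^[m] G := by
  induction m with
  | zero => rfl
  | succ m ih =>
    rw [Function.iterate_succ_apply', Function.iterate_succ_apply', Function.iterate_succ_apply',
      ih, normalizedDerivOfComplex_sub _ _ (iterate_D_mdiff m hF) (iterate_D_mdiff m hG)]

theorem iterate_D_smul (m : ℕ) (c : ℂ) {F : ℍ → ℂ} (hF : MDiff F) :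
    D^[m] (c • F) = c • D^[m] F := by
  induction m with
  | zero => rfl
  | succ m ih =>
    rw [Function.iterate_succ_apply', Function.iterate_succ_apply',
      ih, normalizedDerivOfComplex_smul _ _ (iterate_D_mdiff m hF)]

/-! ### Polynomial functions -/

/-- Evaluation of a polynomial, as a function on the upper half-plane. -/
noncomputable def polyFun (p : ℂ[X]) : ℍ → ℂ := fun z ↦ p.eval (z : ℂ)

@[simp] theorem polyFun_apply (p : ℂ[X]) (z : ℍ) : polyFun p z = p.eval (z : ℂ) := rfl

theorem polyFun_add (p q : ℂ[X]) : polyFun (p + q) = polyFun p + polyFun q := by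
  funext z; simp

theorem polyFun_sub (p q : ℂ[X]) : polyFun (p - q) = polyFun p - polyFun q := by
  funext z; simp

theorem polyFun_smul (c : ℂ) (p : ℂ[X]) : polyFun (c • p) = c • polyFun p := by
  funext z; simp

theorem polyFun_zero : polyFun 0 = 0 := by
  funext z; simp

theorem polyFun_C (c : ℂ) : polyFun (C c) = fun _ ↦ c := by
  funext z; simp

theorem polyFun_comp_ofComplex_eqOn (p : ℂ[X]) :
    Set.EqOn (polyFun p ∘ ofComplex) (fun w ↦ p.eval w) {z | 0 < z.im} := by
  intro w hw
  simp [comp_apply, ofComplex_apply_of_im_pos hw]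

theorem mdiff_polyFun (p : ℂ[X]) : MDiff (polyFun p) := by
  rw [UpperHalfPlane.mdifferentiable_iff]
  exact (p.differentiable.differentiableOn).congr (polyFun_comp_ofComplex_eqOn p)

theorem D_polyFun (p : ℂ[X]) :
    D (polyFun p) = polyFun (C (2 * π * I)⁻¹ * derivative p) := by
  funext z
  simp only [normalizedDerivOfComplex, polyFun_apply, eval_mul, eval_C]
  congr 1
  have h1 : (polyFun p ∘ ofComplex) =ᶠ[𝓝 (z : ℂ)] fun w ↦ p.eval w :=
    (polyFun_comp_ofComplex_eqOn p).eventuallyEq_of_mem
      (isOpen_upperHalfPlaneSet.mem_nhds z.im_pos)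
  rw [h1.deriv_eq, Polynomial.deriv]

theorem infinite_upperHalfPlaneSet : Set.Infinite {z : ℂ | 0 < z.im} :=
  infinite_of_mem_nhds (I : ℂ) (isOpen_upperHalfPlaneSet.mem_nhds (by simp))

theorem polyFun_injective : Function.Injective polyFun := by
  intro p q hpq
  refine Polynomial.eq_of_infinite_eval_eq p q (infinite_upperHalfPlaneSet.mono ?_)
  intro w hw
  exact congrFun hpq ⟨w, hw⟩

theorem const_of_D_eq_zero {P : ℍ → ℂ} (hP : MDiff P) (h : D P = 0) :
    ∃ c : ℂ, P = fun _ ↦ c := by
  refine ⟨P UpperHalfPlane.I, funext fun z ↦ ?_⟩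
  have hd : Set.EqOn (deriv (P ∘ ofComplex)) 0 {z : ℂ | 0 < z.im} := by
    intro w hw
    have := congrFun h ⟨w, hw⟩
    simp only [normalizedDerivOfComplex, Pi.zero_apply] at this
    rcases mul_eq_zero.mp this with h0 | h0
    · exact absurd (inv_eq_zero.mp h0) two_pi_I_ne_zero
    · simpa using h0
  have := isOpen_upperHalfPlaneSet.is_const_of_deriv_eq_zero
    (Convex.isPreconnected (convex_halfSpace_im_gt 0))
    (UpperHalfPlane.mdifferentiable_iff.mp hP) hd z.im_pos UpperHalfPlane.I.im_pos
  rw [comp_apply, comp_apply, ofComplex_apply, ofComplex_apply] at this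
  exact this

/-- A formal antiderivative of a complex polynomial. -/
noncomputable def antider (p : ℂ[X]) : ℂ[X] :=
  ∑ i ∈ Finset.range (p.natDegree + 1), C (p.coeff i / (i + 1)) * X ^ (i + 1)

theorem derivative_antider (p : ℂ[X]) : derivative (antider p) = p := by
  conv_rhs => rw [p.as_sum_range_C_mul_X_pow]
  simp only [antider, derivative_sum]
  refine Finset.sum_congr rfl fun i _ ↦ ?_
  rw [derivative_C_mul_X_pow]
  have : ((i : ℂ) + 1) ≠ 0 := by exact_mod_cast Nat.succ_ne_zero i
  congr 2
  · push_cast
    field_simp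

theorem natDegree_antider_le (p : ℂ[X]) : (antider p).natDegree ≤ p.natDegree + 1 := by
  refine natDegree_sum_le_of_forall_le _ _ fun i hi ↦ ?_
  refine (natDegree_C_mul_X_pow_le _ _).trans ?_
  have := Finset.mem_range.mp hi
  omega

/-- A holomorphic function on `ℍ` whose `(n+1)`-st normalised derivative vanishes is a polynomial
of degree at most `n`. -/
theorem exists_poly_of_iterate_D_eq_zero (n : ℕ) {P : ℍ → ℂ} (hP : MDiff P)
    (h : D^[n + 1] P = 0) : ∃ p : ℂ[X], p.natDegree ≤ n ∧ P = polyFun p := by
  induction n generalizing P with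
  | zero =>
    obtain ⟨c, hc⟩ := const_of_D_eq_zero hP (by simpa using h)
    exact ⟨C c, by simp, by rw [hc, polyFun_C]⟩
  | succ n ih =>
    rw [Function.iterate_succ_apply] at h
    obtain ⟨p₁, hp₁, hDP⟩ := ih (normalizedDerivOfComplex_mdifferentiable hP) h
    set q : ℂ[X] := antider (C (2 * π * I) * p₁) with hq
    have hDq : D (polyFun q) = polyFun p₁ := by
      rw [D_polyFun, hq, derivative_antider, ← mul_assoc, ← C_mul,
        inv_mul_cancel₀ two_pi_I_ne_zero, C_1, one_mul]
    have h0 : D (P - polyFun q) = 0 := by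
      rw [normalizedDerivOfComplex_sub _ _ hP (mdiff_polyFun q), hDP, hDq, sub_self]
    obtain ⟨c, hc⟩ := const_of_D_eq_zero (hP.sub (mdiff_polyFun q)) h0
    refine ⟨q + C c, ?_, ?_⟩
    · refine (natDegree_add_le _ _).trans ?_
      rw [natDegree_C, max_eq_left (Nat.zero_le _)]
      refine (natDegree_antider_le _).trans ?_
      have := natDegree_C_mul_le (2 * π * I) p₁
      omega
    · rw [polyFun_add, polyFun_C, ← hc]
      funext z
      simp

/-- A polynomial function which is periodic is constant. -/
theorem polyFun_const_of_periodic {h : ℝ} (hh : h ≠ 0) {p : ℂ[X]}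
    (hper : Periodic (polyFun p ∘ ofComplex) h) : p = C (p.eval I) := by
  have key : ∀ m : ℕ, p.eval (I + m * h) = p.eval I := by
    intro m
    have him : ∀ m : ℕ, 0 < (I + (m : ℂ) * (h : ℂ)).im := by
      intro m
      simp
    induction m with
    | zero => simp
    | succ m ih =>
      have h1 := hper (I + m * h)
      simp only [comp_apply] at h1
      have e : (I + (m : ℂ) * (h : ℂ)) + (h : ℂ) = I + ((m + 1 : ℕ) : ℂ) * h := by
        push_cast; ring
      rw [e, ofComplex_apply_of_im_pos (him (m + 1)), ofComplex_apply_of_im_pos (him m)] at h1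
      simpa [ih] using h1
  refine Polynomial.eq_of_infinite_eval_eq p (C (p.eval I)) ?_
  have hinj : Function.Injective (fun m : ℕ ↦ (I + (m : ℂ) * (h : ℂ))) := by
    intro a b hab
    have hh' : (h : ℂ) ≠ 0 := by exact_mod_cast hh
    have := mul_right_cancel₀ hh' (add_left_cancel hab)
    exact_mod_cast this
  refine (Set.infinite_range_of_injective hinj).mono ?_
  rintro _ ⟨m, rfl⟩
  simp [key m]

/-- Uniqueness of iterated primitives in the class `IsCuspPer h`. -/
theorem IsCuspPer.eq_zero_of_iterate_D_eq_zero {h : ℝ} (hh : 0 < h) (m : ℕ) {E : ℍ → ℂ}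
    (hE : IsCuspPer h E) (hD : D^[m] E = 0) : E = 0 := by
  cases m with
  | zero => simpa using hD
  | succ n =>
    obtain ⟨p, -, rfl⟩ := exists_poly_of_iterate_D_eq_zero n hE.hol hD
    have hp := polyFun_const_of_periodic hh.ne' hE.per
    rw [hp, polyFun_C] at hE ⊢
    have hz : Tendsto (fun _ : ℍ ↦ p.eval I) atImInfty (𝓝 0) := hE.zero
    have := tendsto_const_nhds_iff.mp hz
    funext z
    simp [this]

end Fermat.Agent.S22.H50
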