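import Mathlib
import Fermat.Agent.S22.H50.PolyFun

/-!
# Bol's identity

`D^[n+1] (F ∣[-n] g) = det(g)^{-(n+1)} • (D^[n+1] F) ∣[n+2] g` for `g ∈ GL₂(ℝ)⁺`.
-/

open UpperHalfPlane hiding I
open Complex Filter Function Metric
open scoped Real Topology Manifold MatrixGroups ModularForm
open Derivative

set_option autoImplicit false

namespace Fermat.Agent.S22.H50

variable {g : GL (Fin 2) ℝ}

/-- weight shift for the slash action of an element of positive determinant -/
theorem slash_pred (hg : 0 < g.val.det) (k : ℤ) (F : ℍ → ℂ) (z : ℍ) :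
    (F ∣[k - 1] g) z = (g.val.det : ℂ)⁻¹ * denom g z * (F ∣[k] g) z := by
  have hdet : g.det.val = g.val.det := Matrix.GeneralLinearGroup.val_det_apply g
  have hδ : (g.val.det : ℂ) ≠ 0 := Complex.ofReal_ne_zero.mpr hg.ne'
  have hz := denom_ne_zero g z
  simp only [ModularForm.slash_apply, hdet, abs_of_pos hg]
  rw [show k - 1 - 1 = (k - 1) + (-1) by ring, show -(k - 1) = -k + 1 by ring,
    zpow_add₀ hδ, zpow_add₀ hz, zpow_neg_one, zpow_one]
  ring

theorem mdiff_denom (g : GL (Fin 2) ℝ) : MDiff (fun z : ℍ ↦ denom g z) :=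
  (UpperHalfPlane.contMDiff_denom (n := 1) g).mdifferentiable one_ne_zero

theorem D_denom (g : GL (Fin 2) ℝ) :
    D (fun z : ℍ ↦ denom g z) = fun _ ↦ (2 * π * I)⁻¹ * (g 1 0 : ℂ) := by
  funext z
  simp only [normalizedDerivOfComplex]
  congr 1
  have h1 : ((fun z : ℍ ↦ denom g z) ∘ ofComplex) =ᶠ[𝓝 (z : ℂ)]
      fun w : ℂ ↦ (g 1 0 : ℂ) * w + (g 1 1 : ℂ) := by
    filter_upwards [isOpen_upperHalfPlaneSet.mem_nhds z.im_pos] with w hw
    simp [comp_apply, ofComplex_apply_of_im_pos hw, denom]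
  rw [h1.deriv_eq]
  simp

/-- Leibniz rule for multiplication by the affine function `denom g`. -/
theorem iterate_D_denom_mul (g : GL (Fin 2) ℝ) (m : ℕ) {G : ℍ → ℂ} (hG : MDiff G) :
    D^[m + 1] ((fun z : ℍ ↦ denom g z) * G) =
      (fun z : ℍ ↦ denom g z) * D^[m + 1] G +
        (((m : ℂ) + 1) * ((2 * π * I)⁻¹ * (g 1 0 : ℂ))) • D^[m] G := by
  induction m with
  | zero =>
    simp only [zero_add, Function.iterate_one, Function.iterate_zero, id_eq]
    rw [normalizedDerivOfComplex_mul _ _ (mdiff_denom g) hG, D_denom]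
    funext z
    simp only [Pi.add_apply, Pi.mul_apply, Pi.smul_apply, smul_eq_mul]
    push_cast
    ring
  | succ m ih =>
    rw [Function.iterate_succ_apply', ih]
    have h1 : MDiff ((fun z : ℍ ↦ denom g z) * D^[m + 1] G) :=
      (mdiff_denom g).mul (iterate_D_mdiff (m + 1) hG)
    have h2 : MDiff ((((m : ℂ) + 1) * ((2 * π * I)⁻¹ * (g 1 0 : ℂ))) • D^[m] G) :=
      (iterate_D_mdiff m hG).const_smul _
    rw [normalizedDerivOfComplex_add _ _ h1 h2,
      normalizedDerivOfComplex_mul _ _ (mdiff_denom g) (iterate_D_mdiff (m + 1) hG),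
      normalizedDerivOfComplex_smul _ _ (iterate_D_mdiff m hG), D_denom,
      ← Function.iterate_succ_apply' D (m + 1) G, ← Function.iterate_succ_apply' D m G]
    funext z
    simp only [Pi.add_apply, Pi.mul_apply, Pi.smul_apply, smul_eq_mul]
    push_cast
    ring

/-- **Bol's identity.** -/
theorem bol (hg : 0 < g.val.det) (n : ℕ) {F : ℍ → ℂ} (hF : MDiff F) :
    D^[n + 1] (F ∣[-(n : ℤ)] g) =
      ((g.val.det : ℂ)⁻¹) ^ (n + 1) • (D^[n + 1] F ∣[(n : ℤ) + 2] g) := by
  induction n generalizing F with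
  | zero =>
    simp only [Function.iterate_one, Nat.cast_zero, neg_zero, zero_add, pow_one]
    rw [normalizedDerivOfComplex_slash hF hg]
    funext z
    simp
  | succ n ih =>
    have hδ : (g.val.det : ℂ) ≠ 0 := Complex.ofReal_ne_zero.mpr hg.ne'
    have hG : MDiff (D^[n + 1] F) := iterate_D_mdiff (n + 1) hF
    have hFs : MDiff (F ∣[-(n : ℤ)] g) := hF.slash _ g
    have hGs : MDiff (D^[n + 1] F ∣[(n : ℤ) + 2] g) := hG.slash _ g
    -- rewrite the left-hand side using the weight shift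
    have e1 : F ∣[-((n + 1 : ℕ) : ℤ)] g =
        (g.val.det : ℂ)⁻¹ • ((fun z : ℍ ↦ denom g z) * (F ∣[-(n : ℤ)] g)) := by
      funext z
      have := slash_pred hg (-(n : ℤ)) F z
      rw [show -((n + 1 : ℕ) : ℤ) = -(n : ℤ) - 1 by push_cast; ring, this]
      simp only [Pi.smul_apply, Pi.mul_apply, smul_eq_mul]
      ring
    have e3 : D^[n + 1 + 1] (F ∣[-(n : ℤ)] g) =
        ((g.val.det : ℂ)⁻¹) ^ (n + 1) • D (D^[n + 1] F ∣[(n : ℤ) + 2] g) := by
      rw [Function.iterate_succ_apply', ih hF, normalizedDerivOfComplex_smul _ _ hGs]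
    rw [e1, iterate_D_smul _ _ ((mdiff_denom g).mul hFs), iterate_D_denom_mul g (n + 1) hFs,
      e3, ih hF, normalizedDerivOfComplex_slash hG hg,
      Function.iterate_succ_apply' D (n + 1) F]
    funext z
    have hz := denom_ne_zero g z
    have e2 := slash_pred hg ((n : ℤ) + 4) (D (D^[n + 1] F)) z
    have e4 : ((n + 1 : ℕ) : ℤ) + 2 = (n : ℤ) + 4 - 1 := by push_cast; ring
    have e5 : (n : ℤ) + 2 + 2 = (n : ℤ) + 4 := by ring
    rw [e4]
    simp only [Pi.smul_apply, Pi.add_apply, Pi.mul_apply, smul_eq_mul]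
    rw [e2, e5]
    generalize ((g.val.det : ℝ) : ℂ)⁻¹ = x
    push_cast
    field_simp
    ring

end Fermat.Agent.S22.H50
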