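import Mathlib
import Fermat.Prelude.Def_ModularForm_HeckeOperator
import Fermat.Prelude.Thm_ModularForm_periodic_heckeT_comp_ofComplex
import Fermat.Prelude.Thm_ModularForm_periodic_heckeU_comp_ofComplex
import Fermat.Prelude.Thm_ModularForm_mdifferentiable_heckeT
import Fermat.Prelude.Thm_ModularForm_mdifferentiable_heckeU
import Fermat.Agent.S22.H50.Bol

/-!
# The canonical Eichler integral and its compatibility with the Hecke operators
-/

open UpperHalfPlane hiding I
open Complex Filter Function Metric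
open scoped Real Topology Manifold MatrixGroups ModularForm
open Derivative

set_option autoImplicit false

namespace Fermat.Agent.S22.H50

variable {h : ℝ}

theorem isCuspPer_zero (h : ℝ) : IsCuspPer h (0 : ℍ → ℂ) where
  per := fun _ ↦ rfl
  hol := mdifferentiable_const
  zero := tendsto_const_nhds

theorem IsCuspPer.add {f g : ℍ → ℂ} (hf : IsCuspPer h f) (hg : IsCuspPer h g) :
    IsCuspPer h (f + g) where
  per := hf.per.add hg.per
  hol := hf.hol.add hg.hol
  zero := ZeroAtFilter.add hf.zero hg.zero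

theorem IsCuspPer.smul (c : ℂ) {f : ℍ → ℂ} (hf : IsCuspPer h f) : IsCuspPer h (c • f) where
  per := fun w ↦ by
    have := hf.per w
    simp only [comp_apply, Pi.smul_apply] at this ⊢
    rw [this]
  hol := hf.hol.const_smul c
  zero := ZeroAtFilter.smul c hf.zero

theorem IsCuspPer.neg {f : ℍ → ℂ} (hf : IsCuspPer h f) : IsCuspPer h (-f) := by
  have := hf.smul (-1)
  rwa [neg_one_smul] at this

theorem IsCuspPer.sub {f g : ℍ → ℂ} (hf : IsCuspPer h f) (hg : IsCuspPer h g) :
    IsCuspPer h (f - g) := by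
  rw [sub_eq_add_neg]
  exact hf.add hg.neg

theorem IsCuspPer.sum {ι : Type*} (s : Finset ι) {f : ι → ℍ → ℂ}
    (hf : ∀ i ∈ s, IsCuspPer h (f i)) : IsCuspPer h (∑ i ∈ s, f i) := by
  classical
  induction s using Finset.induction_on with
  | empty => simpa using isCuspPer_zero h
  | insert a s ha ih =>
    rw [Finset.sum_insert ha]
    exact (hf a (Finset.mem_insert_self a s)).add
      (ih fun i hi ↦ hf i (Finset.mem_insert_of_mem hi))

theorem iterate_D_sum {ι : Type*} (m : ℕ) (s : Finset ι) {f : ι → ℍ → ℂ}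
    (hf : ∀ i ∈ s, MDiff (f i)) : D^[m] (∑ i ∈ s, f i) = ∑ i ∈ s, D^[m] (f i) := by
  classical
  induction s using Finset.induction_on with
  | empty => simpa using iterate_D_zero m
  | insert a s ha ih =>
    have hs : MDiff (∑ i ∈ s, f i) := by
      have : ∀ t : Finset ι, (∀ i ∈ t, MDiff (f i)) → MDiff (∑ i ∈ t, f i) := by
        intro t
        induction t using Finset.induction_on with
        | empty =>
          intro _
          rw [Finset.sum_empty]
          exact (isCuspPer_zero 1).hol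
        | insert b t hb iht =>
          intro ht
          rw [Finset.sum_insert hb]
          exact (ht b (Finset.mem_insert_self b t)).add
            (iht fun i hi ↦ ht i (Finset.mem_insert_of_mem hi))
      exact this s fun i hi ↦ hf i (Finset.mem_insert_of_mem hi)
    rw [Finset.sum_insert ha, Finset.sum_insert ha,
      iterate_D_add m (hf a (Finset.mem_insert_self a s)) hs,
      ih fun i hi ↦ hf i (Finset.mem_insert_of_mem hi)]

/-- The canonical `m`-fold primitive (Eichler integral) of a function in the class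
`IsCuspPer h`; junk value `0` outside the class. -/
noncomputable def eint (h : ℝ) (m : ℕ) (f : ℍ → ℂ) : ℍ → ℂ :=
  haveI := Classical.propDecidable (0 < h ∧ IsCuspPer h f)
  if H : 0 < h ∧ IsCuspPer h f then Classical.choose (H.2.exists_iterate_primitive H.1 m) else 0

theorem eint_spec (hh : 0 < h) (m : ℕ) {f : ℍ → ℂ} (hf : IsCuspPer h f) :
    IsCuspPer h (eint h m f) ∧ D^[m] (eint h m f) = f := by
  have H : 0 < h ∧ IsCuspPer h f := ⟨hh, hf⟩
  rw [eint, dif_pos H]
  exact Classical.choose_spec (H.2.exists_iterate_primitive H.1 m)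

theorem eint_unique (hh : 0 < h) (m : ℕ) {E f : ℍ → ℂ} (hf : IsCuspPer h f)
    (hE : IsCuspPer h E) (hD : D^[m] E = f) : E = eint h m f := by
  obtain ⟨h1, h2⟩ := eint_spec hh m hf
  have h3 : D^[m] (E - eint h m f) = 0 := by
    rw [iterate_D_sub m hE.hol h1.hol, hD, h2, sub_self]
  exact sub_eq_zero.mp ((hE.sub h1).eq_zero_of_iterate_D_eq_zero hh m h3)

theorem eint_add (hh : 0 < h) (m : ℕ) {f g : ℍ → ℂ} (hf : IsCuspPer h f) (hg : IsCuspPer h g) :
    eint h m (f + g) = eint h m f + eint h m g := by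
  obtain ⟨h1, h2⟩ := eint_spec hh m hf
  obtain ⟨h3, h4⟩ := eint_spec hh m hg
  refine (eint_unique hh m (hf.add hg) (h1.add h3) ?_).symm
  rw [iterate_D_add m h1.hol h3.hol, h2, h4]

theorem eint_smul (hh : 0 < h) (m : ℕ) (c : ℂ) {f : ℍ → ℂ} (hf : IsCuspPer h f) :
    eint h m (c • f) = c • eint h m f := by
  obtain ⟨h1, h2⟩ := eint_spec hh m hf
  refine (eint_unique hh m (hf.smul c) (h1.smul c) ?_).symm
  rw [iterate_D_smul m c h1.hol, h2]

/-! ### Hecke operators preserve the class -/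

open ModularForm in
theorem isZeroAtImInfty_slash_heckeMatrix {F : ℍ → ℂ} (hF : IsZeroAtImInfty F) (κ : ℤ)
    (p j : ℕ) : IsZeroAtImInfty (F ∣[κ] heckeMatrix p j) := by
  rcases eq_or_ne p 0 with rfl | hp
  · simpa using hF
  · have h1 : Tendsto (fun τ : ℍ ↦ heckeMatrix p j • τ) atImInfty atImInfty :=
      tendsto_smul_atImInfty (by simp [val_heckeMatrix hp])
    have h2 : Tendsto (fun τ : ℍ ↦ (p : ℂ)⁻¹ * F (heckeMatrix p j • τ)) atImInfty (𝓝 0) := by
      simpa using (hF.comp h1).const_mul ((p : ℂ)⁻¹)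
    refine h2.congr fun τ ↦ ?_
    rw [slash_heckeMatrix_apply κ hp]

open ModularForm in
theorem isZeroAtImInfty_slash_heckeDiagMatrix {F : ℍ → ℂ} (hF : IsZeroAtImInfty F) (κ : ℤ)
    (p : ℕ) : IsZeroAtImInfty (F ∣[κ] heckeDiagMatrix p) := by
  rcases eq_or_ne p 0 with rfl | hp
  · simpa using hF
  · have h1 : Tendsto (fun τ : ℍ ↦ heckeDiagMatrix p • τ) atImInfty atImInfty :=
      tendsto_smul_atImInfty (by simp [val_heckeDiagMatrix hp])
    have h2 : Tendsto (fun τ : ℍ ↦ (p : ℂ) ^ (κ - 1) * F (heckeDiagMatrix p • τ))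
        atImInfty (𝓝 0) := by
      simpa using (hF.comp h1).const_mul ((p : ℂ) ^ (κ - 1))
    refine h2.congr fun τ ↦ ?_
    rw [slash_heckeDiagMatrix_apply κ hp]

open ModularForm in
theorem isZeroAtImInfty_heckeU {F : ℍ → ℂ} (hF : IsZeroAtImInfty F) (κ : ℤ) (p : ℕ) :
    IsZeroAtImInfty (heckeU κ p F) := by
  rw [heckeU_def]
  have : ∀ s : Finset ℕ, IsZeroAtImInfty (∑ j ∈ s, F ∣[κ] heckeMatrix p j) := by
    intro s
    induction s using Finset.induction_on with
    | empty =>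
      rw [Finset.sum_empty]
      exact (isCuspPer_zero 1).zero
    | insert a s ha ih =>
      rw [Finset.sum_insert ha]
      exact ZeroAtFilter.add (isZeroAtImInfty_slash_heckeMatrix hF κ p a) ih
  exact this _

open ModularForm in
theorem IsCuspPer.heckeU {F : ℍ → ℂ} (hF : IsCuspPer 1 F) (κ : ℤ) (p : ℕ) :
    IsCuspPer 1 (heckeU κ p F) where
  per := by simpa using periodic_heckeU_comp_ofComplex (by simpa using hF.per) κ p
  hol := mdifferentiable_heckeU hF.hol κ p
  zero := isZeroAtImInfty_heckeU hF.zero κ p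

open ModularForm in
theorem IsCuspPer.heckeT {F : ℍ → ℂ} (hF : IsCuspPer 1 F) (κ : ℤ) (p : ℕ) :
    IsCuspPer 1 (heckeT κ p F) where
  per := by simpa using periodic_heckeT_comp_ofComplex (by simpa using hF.per) κ p
  hol := mdifferentiable_heckeT hF.hol κ p
  zero := by
    rw [heckeT_eq_heckeU_add]
    exact ZeroAtFilter.add (isZeroAtImInfty_heckeU hF.zero κ p)
      (isZeroAtImInfty_slash_heckeDiagMatrix hF.zero κ p)

/-! ### The Eichler integral intertwines the Hecke operators of weights `n+2` and `-n` -/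

open ModularForm in
theorem iterate_D_slash_heckeMatrix (n : ℕ) {p : ℕ} (hp : p ≠ 0) (j : ℕ) {F : ℍ → ℂ}
    (hF : MDiff F) :
    D^[n + 1] (F ∣[-(n : ℤ)] heckeMatrix p j) =
      ((p : ℂ)⁻¹) ^ (n + 1) • (D^[n + 1] F ∣[(n : ℤ) + 2] heckeMatrix p j) := by
  have hdet : (heckeMatrix p j).val.det = p := by
    rw [← Matrix.GeneralLinearGroup.val_det_apply, det_heckeMatrix hp]
  have hpos : 0 < (heckeMatrix p j).val.det := by
    rw [hdet]; exact_mod_cast Nat.pos_of_ne_zero hp
  rw [bol hpos n hF, hdet]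
  simp

open ModularForm in
theorem iterate_D_slash_heckeDiagMatrix (n : ℕ) {p : ℕ} (hp : p ≠ 0) {F : ℍ → ℂ}
    (hF : MDiff F) :
    D^[n + 1] (F ∣[-(n : ℤ)] heckeDiagMatrix p) =
      ((p : ℂ)⁻¹) ^ (n + 1) • (D^[n + 1] F ∣[(n : ℤ) + 2] heckeDiagMatrix p) := by
  have hdet : (heckeDiagMatrix p).val.det = p := by
    rw [← Matrix.GeneralLinearGroup.val_det_apply, det_heckeDiagMatrix hp]
  have hpos : 0 < (heckeDiagMatrix p).val.det := by
    rw [hdet]; exact_mod_cast Nat.pos_of_ne_zero hp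
  rw [bol hpos n hF, hdet]
  simp

open ModularForm in
theorem iterate_D_heckeU (n : ℕ) {p : ℕ} (hp : p ≠ 0) {F : ℍ → ℂ} (hF : MDiff F) :
    D^[n + 1] (heckeU (-(n : ℤ)) p F) =
      ((p : ℂ)⁻¹) ^ (n + 1) • heckeU ((n : ℤ) + 2) p (D^[n + 1] F) := by
  rw [heckeU_def, heckeU_def, iterate_D_sum _ _ fun j _ ↦ hF.slash _ _, Finset.smul_sum]
  exact Finset.sum_congr rfl fun j _ ↦ iterate_D_slash_heckeMatrix n hp j hF

open ModularForm in
theorem iterate_D_heckeT (n : ℕ) {p : ℕ} (hp : p ≠ 0) {F : ℍ → ℂ} (hF : MDiff F) :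
    D^[n + 1] (heckeT (-(n : ℤ)) p F) =
      ((p : ℂ)⁻¹) ^ (n + 1) • heckeT ((n : ℤ) + 2) p (D^[n + 1] F) := by
  rw [heckeT_eq_heckeU_add, heckeT_eq_heckeU_add,
    iterate_D_add _ (mdifferentiable_heckeU hF _ p) (hF.slash _ _), iterate_D_heckeU n hp hF,
    iterate_D_slash_heckeDiagMatrix n hp hF, smul_add]

open ModularForm in
theorem eint_heckeT (n : ℕ) {p : ℕ} (hp : p ≠ 0) {f : ℍ → ℂ} (hf : IsCuspPer 1 f) :
    eint 1 (n + 1) (heckeT ((n : ℤ) + 2) p f) =
      (p : ℂ) ^ (n + 1) • heckeT (-(n : ℤ)) p (eint 1 (n + 1) f) := by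
  obtain ⟨h1, h2⟩ := eint_spec one_pos (n + 1) hf
  have hp' : (p : ℂ) ≠ 0 := by exact_mod_cast hp
  refine (eint_unique one_pos (n + 1) (hf.heckeT _ p) ((h1.heckeT _ p).smul _) ?_).symm
  rw [iterate_D_smul _ _ (h1.heckeT _ p).hol, iterate_D_heckeT n hp h1.hol, h2, smul_smul,
    ← mul_pow, mul_inv_cancel₀ hp', one_pow, one_smul]

open ModularForm in
theorem eint_heckeU (n : ℕ) {p : ℕ} (hp : p ≠ 0) {f : ℍ → ℂ} (hf : IsCuspPer 1 f) :
    eint 1 (n + 1) (heckeU ((n : ℤ) + 2) p f) =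
      (p : ℂ) ^ (n + 1) • heckeU (-(n : ℤ)) p (eint 1 (n + 1) f) := by
  obtain ⟨h1, h2⟩ := eint_spec one_pos (n + 1) hf
  have hp' : (p : ℂ) ≠ 0 := by exact_mod_cast hp
  refine (eint_unique one_pos (n + 1) (hf.heckeU _ p) ((h1.heckeU _ p).smul _) ?_).symm
  rw [iterate_D_smul _ _ (h1.heckeU _ p).hol, iterate_D_heckeU n hp h1.hol, h2, smul_smul,
    ← mul_pow, mul_inv_cancel₀ hp', one_pow, one_smul]

end Fermat.Agent.S22.H50
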