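import Mathlib
import Fermat.Agent.S22.H50.Eint

/-!
# Period polynomials of the Eichler integral

For a function `f` in the class `IsCuspPer 1` and `g ∈ GL₂(ℝ)` of determinant one with
`f ∣[n+2] g = f`, the function `F ∣[-n] g - F` (`F` the Eichler integral of `f`) is a polynomial
of degree at most `n`: the period polynomial.  We prove its cocycle relation.
-/

open UpperHalfPlane hiding I
open Complex Filter Function Metric Polynomial
open scoped Real Topology Manifold MatrixGroups ModularForm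
open Derivative

set_option autoImplicit false

namespace Fermat.Agent.S22.H50

/-! ### The action of `2 × 2` matrices on polynomials of degree at most `n` -/

/-- `p ↦ (cX+d)^n p((aX+b)/(cX+d))` on polynomials of degree at most `n`. -/
noncomputable def polyAct (n : ℕ) (a b c d : ℂ) (p : ℂ[X]) : ℂ[X] :=
  ∑ i ∈ Finset.range (n + 1), C (p.coeff i) * ((C a * X + C b) ^ i * (C c * X + C d) ^ (n - i))

theorem polyAct_add (n : ℕ) (a b c d : ℂ) (p q : ℂ[X]) :
    polyAct n a b c d (p + q) = polyAct n a b c d p + polyAct n a b c d q := by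
  simp only [polyAct, coeff_add, C_add, add_mul, Finset.sum_add_distrib]

theorem polyAct_zero (n : ℕ) (a b c d : ℂ) : polyAct n a b c d 0 = 0 := by
  simp [polyAct]

theorem polyAct_sum {ι : Type*} (s : Finset ι) (n : ℕ) (a b c d : ℂ) (p : ι → ℂ[X]) :
    polyAct n a b c d (∑ x ∈ s, p x) = ∑ x ∈ s, polyAct n a b c d (p x) := by
  classical
  induction s using Finset.induction_on with
  | empty => simp [polyAct_zero]
  | insert x s hx ih => rw [Finset.sum_insert hx, Finset.sum_insert hx, polyAct_add, ih]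

theorem natDegree_polyAct_le (n : ℕ) (a b c d : ℂ) (p : ℂ[X]) :
    (polyAct n a b c d p).natDegree ≤ n := by
  refine natDegree_sum_le_of_forall_le _ _ fun i hi ↦ ?_
  have hi' : i ≤ n := Nat.lt_succ_iff.mp (Finset.mem_range.mp hi)
  refine (natDegree_C_mul_le _ _).trans ?_
  refine natDegree_mul_le.trans ?_
  have h1 : ((C a * X + C b) ^ i).natDegree ≤ i := by
    refine natDegree_pow_le.trans ?_
    have : (C a * X + C b).natDegree ≤ 1 := natDegree_linear_le
    calc i * (C a * X + C b).natDegree ≤ i * 1 := Nat.mul_le_mul_left i this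
      _ = i := mul_one i
  have h2 : ((C c * X + C d) ^ (n - i)).natDegree ≤ n - i := by
    refine natDegree_pow_le.trans ?_
    have : (C c * X + C d).natDegree ≤ 1 := natDegree_linear_le
    calc (n - i) * (C c * X + C d).natDegree ≤ (n - i) * 1 := Nat.mul_le_mul_left _ this
      _ = n - i := mul_one _
  omega

theorem eval_polyAct (n : ℕ) (a b c d : ℂ) {p : ℂ[X]} (hp : p.natDegree ≤ n) (z : ℂ)
    (hz : c * z + d ≠ 0) :
    (polyAct n a b c d p).eval z = p.eval ((a * z + b) / (c * z + d)) * (c * z + d) ^ n := by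
  rw [Polynomial.eval_eq_sum_range' (Nat.lt_succ_of_le hp), Finset.sum_mul]
  simp only [polyAct, eval_finsetSum, eval_mul, eval_C, eval_pow, eval_add, eval_X]
  refine Finset.sum_congr rfl fun i hi ↦ ?_
  have hi' : i ≤ n := Nat.lt_succ_iff.mp (Finset.mem_range.mp hi)
  obtain ⟨m, rfl⟩ := Nat.exists_eq_add_of_le hi'
  have hzi : (c * z + d) ^ i ≠ 0 := pow_ne_zero _ hz
  have key : (a * z + b) ^ i / (c * z + d) ^ i * ((c * z + d) ^ i * (c * z + d) ^ m) =
      (a * z + b) ^ i * (c * z + d) ^ m := by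
    rw [← mul_assoc, div_mul_cancel₀ _ hzi]
  rw [Nat.add_sub_cancel_left, div_pow, pow_add, mul_assoc (p.coeff i), key]

/-- The integer matrix of `polyAct n a b c d` in the monomial basis, for integers `a b c d`. -/
noncomputable def polyActZ (n : ℕ) (a b c d : ℤ) (i j : ℕ) : ℤ :=
  (((C a * X + C b) ^ i * (C c * X + C d) ^ (n - i) : ℤ[X])).coeff j

theorem coeff_polyAct_intCast (n : ℕ) (a b c d : ℤ) (p : ℂ[X]) (j : ℕ) :
    (polyAct n a b c d p).coeff j =
      ∑ i ∈ Finset.range (n + 1), (polyActZ n a b c d i j : ℂ) * p.coeff i := by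
  simp only [polyAct, finsetSum_coeff, coeff_C_mul]
  refine Finset.sum_congr rfl fun i _ ↦ ?_
  have : ((C (a : ℂ) * X + C (b : ℂ)) ^ i * (C (c : ℂ) * X + C (d : ℂ)) ^ (n - i) : ℂ[X]) =
      Polynomial.map (Int.castRingHom ℂ)
        ((C a * X + C b) ^ i * (C c * X + C d) ^ (n - i) : ℤ[X]) := by
    simp
  rw [this, coeff_map, polyActZ, mul_comm]
  rfl

/-- `polyAct` for the entries of a real matrix. -/
noncomputable def polyActG (n : ℕ) (g : GL (Fin 2) ℝ) (p : ℂ[X]) : ℂ[X] :=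
  polyAct n (g 0 0 : ℝ) (g 0 1 : ℝ) (g 1 0 : ℝ) (g 1 1 : ℝ) p

theorem polyFun_slash {g : GL (Fin 2) ℝ} (hg : 0 < g.val.det) (n : ℕ) {p : ℂ[X]}
    (hp : p.natDegree ≤ n) :
    polyFun p ∣[-(n : ℤ)] g = ((g.val.det : ℂ)⁻¹) ^ (n + 1) • polyFun (polyActG n g p) := by
  have hdet : g.det.val = g.val.det := Matrix.GeneralLinearGroup.val_det_apply g
  have hδ : (g.val.det : ℂ) ≠ 0 := Complex.ofReal_ne_zero.mpr hg.ne'
  funext z
  have hz := denom_ne_zero g z
  have hσ : σ g = ContinuousAlgEquiv.refl ℝ ℂ := by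
    rw [σ, if_pos (hdet ▸ hg)]
  simp only [ModularForm.slash_apply, hdet, abs_of_pos hg, hσ, Pi.smul_apply, polyFun_apply,
    smul_eq_mul, polyActG, ContinuousAlgEquiv.refl_apply]
  rw [eval_polyAct n _ _ _ _ hp z (by simpa [denom] using hz),
    coe_smul_of_det_pos (hdet ▸ hg) z]
  simp only [num, denom, neg_neg, zpow_natCast]
  rw [show -(n : ℤ) - 1 = -((n + 1 : ℕ) : ℤ) by push_cast; ring, zpow_neg, zpow_natCast, inv_pow]
  ring

/-! ### Period functions and period polynomials -/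

theorem smul_slash_of_det_pos {g : GL (Fin 2) ℝ} (hg : 0 < g.val.det) (k : ℤ) (c : ℂ)
    (F : ℍ → ℂ) : (c • F) ∣[k] g = c • (F ∣[k] g) := by
  have hdet : g.det.val = g.val.det := Matrix.GeneralLinearGroup.val_det_apply g
  rw [ModularForm.smul_slash, σ, if_pos (hdet ▸ hg)]
  rfl

/-- The period function of `f` at `g`: `F ∣[-n] g - F` for the Eichler integral `F` of `f`. -/
noncomputable def perFun (n : ℕ) (f : ℍ → ℂ) (g : GL (Fin 2) ℝ) : ℍ → ℂ :=
  eint 1 (n + 1) f ∣[-(n : ℤ)] g - eint 1 (n + 1) f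

theorem perFun_add (n : ℕ) {f₁ f₂ : ℍ → ℂ} (h₁ : IsCuspPer 1 f₁) (h₂ : IsCuspPer 1 f₂)
    (g : GL (Fin 2) ℝ) : perFun n (f₁ + f₂) g = perFun n f₁ g + perFun n f₂ g := by
  simp only [perFun, eint_add one_pos (n + 1) h₁ h₂, SlashAction.add_slash]
  abel

theorem perFun_smul (n : ℕ) (c : ℂ) {f : ℍ → ℂ} (hf : IsCuspPer 1 f) {g : GL (Fin 2) ℝ}
    (hg : 0 < g.val.det) : perFun n (c • f) g = c • perFun n f g := by
  simp only [perFun, eint_smul one_pos (n + 1) c hf, smul_slash_of_det_pos hg, smul_sub]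

theorem perFun_one (n : ℕ) (f : ℍ → ℂ) : perFun n f 1 = 0 := by
  simp [perFun]

theorem perFun_mul (n : ℕ) (f : ℍ → ℂ) (g₁ g₂ : GL (Fin 2) ℝ) :
    perFun n f (g₁ * g₂) = perFun n f g₁ ∣[-(n : ℤ)] g₂ + perFun n f g₂ := by
  simp only [perFun, SlashAction.slash_mul, sub_eq_add_neg, SlashAction.add_slash,
    SlashAction.neg_slash]
  abel

theorem iterate_D_perFun (n : ℕ) {f : ℍ → ℂ} (hf : IsCuspPer 1 f) {g : GL (Fin 2) ℝ}
    (hdet : g.val.det = 1) (hinv : f ∣[(n : ℤ) + 2] g = f) : D^[n + 1] (perFun n f g) = 0 := by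
  obtain ⟨h1, h2⟩ := eint_spec one_pos (n + 1) hf
  have hpos : 0 < g.val.det := by rw [hdet]; exact one_pos
  rw [perFun, iterate_D_sub _ (h1.hol.slash _ _) h1.hol, bol hpos n h1.hol, h2, hdet, hinv]
  simp

theorem mdiff_perFun (n : ℕ) {f : ℍ → ℂ} (hf : IsCuspPer 1 f) (g : GL (Fin 2) ℝ) :
    MDiff (perFun n f g) := by
  obtain ⟨h1, -⟩ := eint_spec one_pos (n + 1) hf
  exact (h1.hol.slash _ _).sub h1.hol

theorem exists_perPoly (n : ℕ) {f : ℍ → ℂ} (hf : IsCuspPer 1 f) {g : GL (Fin 2) ℝ}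
    (hdet : g.val.det = 1) (hinv : f ∣[(n : ℤ) + 2] g = f) :
    ∃ p : ℂ[X], p.natDegree ≤ n ∧ perFun n f g = polyFun p :=
  exists_poly_of_iterate_D_eq_zero n (mdiff_perFun n hf g) (iterate_D_perFun n hf hdet hinv)

/-- The period polynomial of `f` at `g` (junk value `0` if the period function is not a
polynomial). -/
noncomputable def perPoly (n : ℕ) (f : ℍ → ℂ) (g : GL (Fin 2) ℝ) : ℂ[X] :=
  haveI := Classical.propDecidable (∃ p : ℂ[X], perFun n f g = polyFun p)
  if H : ∃ p : ℂ[X], perFun n f g = polyFun p then Classical.choose H else 0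

theorem perPoly_eq {n : ℕ} {f : ℍ → ℂ} {g : GL (Fin 2) ℝ} {p : ℂ[X]}
    (h : perFun n f g = polyFun p) : perPoly n f g = p := by
  have H : ∃ p : ℂ[X], perFun n f g = polyFun p := ⟨p, h⟩
  rw [perPoly, dif_pos H]
  exact polyFun_injective ((Classical.choose_spec H).symm.trans h)

theorem polyFun_perPoly (n : ℕ) {f : ℍ → ℂ} (hf : IsCuspPer 1 f) {g : GL (Fin 2) ℝ}
    (hdet : g.val.det = 1) (hinv : f ∣[(n : ℤ) + 2] g = f) :
    polyFun (perPoly n f g) = perFun n f g := by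
  obtain ⟨p, -, h⟩ := exists_perPoly n hf hdet hinv
  rw [perPoly_eq h, h]

theorem natDegree_perPoly_le (n : ℕ) {f : ℍ → ℂ} (hf : IsCuspPer 1 f) {g : GL (Fin 2) ℝ}
    (hdet : g.val.det = 1) (hinv : f ∣[(n : ℤ) + 2] g = f) :
    (perPoly n f g).natDegree ≤ n := by
  obtain ⟨p, hp, h⟩ := exists_perPoly n hf hdet hinv
  rwa [perPoly_eq h]

theorem perPoly_add (n : ℕ) {f₁ f₂ : ℍ → ℂ} (h₁ : IsCuspPer 1 f₁) (h₂ : IsCuspPer 1 f₂)
    {g : GL (Fin 2) ℝ} (hdet : g.val.det = 1) (hinv₁ : f₁ ∣[(n : ℤ) + 2] g = f₁)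
    (hinv₂ : f₂ ∣[(n : ℤ) + 2] g = f₂) :
    perPoly n (f₁ + f₂) g = perPoly n f₁ g + perPoly n f₂ g := by
  apply perPoly_eq
  rw [perFun_add n h₁ h₂, polyFun_add, polyFun_perPoly n h₁ hdet hinv₁,
    polyFun_perPoly n h₂ hdet hinv₂]

theorem perPoly_smul (n : ℕ) (c : ℂ) {f : ℍ → ℂ} (hf : IsCuspPer 1 f)
    {g : GL (Fin 2) ℝ} (hdet : g.val.det = 1) (hinv : f ∣[(n : ℤ) + 2] g = f) :
    perPoly n (c • f) g = c • perPoly n f g := by
  apply perPoly_eq
  have hpos : 0 < g.val.det := by rw [hdet]; exact one_pos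
  rw [perFun_smul n c hf hpos, polyFun_smul, polyFun_perPoly n hf hdet hinv]

theorem perPoly_one (n : ℕ) (f : ℍ → ℂ) : perPoly n f 1 = 0 := by
  apply perPoly_eq
  rw [perFun_one, polyFun_zero]

/-- The cocycle relation of the period polynomials. -/
theorem perPoly_mul (n : ℕ) {f : ℍ → ℂ} (hf : IsCuspPer 1 f) {g₁ g₂ : GL (Fin 2) ℝ}
    (hdet₁ : g₁.val.det = 1) (hdet₂ : g₂.val.det = 1) (hinv₁ : f ∣[(n : ℤ) + 2] g₁ = f)
    (hinv₂ : f ∣[(n : ℤ) + 2] g₂ = f) :
    perPoly n f (g₁ * g₂) = polyActG n g₂ (perPoly n f g₁) + perPoly n f g₂ := by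
  apply perPoly_eq
  have hpos : 0 < g₂.val.det := by rw [hdet₂]; exact one_pos
  rw [perFun_mul, ← polyFun_perPoly n hf hdet₁ hinv₁, ← polyFun_perPoly n hf hdet₂ hinv₂,
    polyFun_slash hpos n (natDegree_perPoly_le n hf hdet₁ hinv₁), hdet₂, polyFun_add]
  simp

end Fermat.Agent.S22.H50
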