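import Mathlib
import Fermat.Prelude.Def_CuspForm_HeckeAlgebra
import Fermat.Agent.S22.H50.Period
import Fermat.Agent.S22.H75.CocycleFG
import Fermat.Agent.S22.H75.Gamma0FG

/-!
# The lattice of period functionals on `S_{n+2}(Γ₀(N))`

`perLattice N n` is the `ℤ`-span, inside the dual of the space of cusp forms, of the coefficient
functionals of the period polynomials.  It is finitely generated because `Γ₀(N)` is a finitely
generated group and the period polynomials satisfy an integral cocycle relation.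
-/

open UpperHalfPlane hiding I
open Complex Filter Function Metric Polynomial
open scoped Real Topology Manifold MatrixGroups ModularForm
open Derivative CongruenceSubgroup Matrix.SpecialLinearGroup

set_option autoImplicit false

namespace Fermat.Agent.S22.H50

theorem isCuspPer_cuspForm {N : ℕ} {k : ℤ} (f : CuspForm (Gamma0 N) k) :
    IsCuspPer 1 (f : ℍ → ℂ) where
  per := by
    have := SlashInvariantFormClass.periodic_comp_ofComplex (h := 1) f
      (by simp [strictPeriods_Gamma0])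
    simpa using this
  hol := CuspFormClass.holo f
  zero := OnePoint.isZeroAt_infty_iff.mp (CuspFormClass.zero_at_cusps f
    ((Gamma0 N).isCusp_of_mem_strictPeriods (h := 1) one_pos (by simp [strictPeriods_Gamma0])))

theorem det_mapGL (γ : SL(2, ℤ)) : (mapGL ℝ γ).val.det = 1 := by
  have h : (mapGL ℝ γ).val =
      ((Matrix.SpecialLinearGroup.map (Int.castRingHom ℝ) γ : SL(2, ℝ)) :
        Matrix (Fin 2) (Fin 2) ℝ) := rfl
  rw [h]
  exact Matrix.SpecialLinearGroup.det_coe _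

theorem slash_mapGL_cuspForm {N : ℕ} {k : ℤ} (f : CuspForm (Gamma0 N) k) {γ : SL(2, ℤ)}
    (hγ : γ ∈ Gamma0 N) : (f : ℍ → ℂ) ∣[k] mapGL ℝ γ = f :=
  SlashInvariantFormClass.slash_action_eq f _ (Subgroup.mem_map_of_mem _ hγ)

theorem polyActG_mapGL (n : ℕ) (γ : SL(2, ℤ)) (p : ℂ[X]) :
    polyActG n (mapGL ℝ γ) p =
      polyAct n ((γ 0 0 : ℤ) : ℂ) ((γ 0 1 : ℤ) : ℂ) ((γ 1 0 : ℤ) : ℂ) ((γ 1 1 : ℤ) : ℂ) p := by
  simp [polyActG]

/-- The `j`-th coefficient of the period polynomial at `γ ∈ Γ₀(N)`, as a linear form on the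
space of cusp forms of weight `n + 2`. -/
noncomputable def perCoeff (N n : ℕ) (γ : Gamma0 N) (j : ℕ) :
    Module.Dual ℂ (CuspForm (Gamma0 N) ((n : ℤ) + 2)) where
  toFun f := (perPoly n (f : ℍ → ℂ) (mapGL ℝ (γ : SL(2, ℤ)))).coeff j
  map_add' f₁ f₂ := by
    rw [FunLike.coe_add, perPoly_add n (isCuspPer_cuspForm f₁) (isCuspPer_cuspForm f₂)
      (det_mapGL _) (slash_mapGL_cuspForm f₁ γ.2) (slash_mapGL_cuspForm f₂ γ.2), coeff_add]
  map_smul' c f := by
    rw [FunLike.coe_smul, perPoly_smul n c (isCuspPer_cuspForm f) (det_mapGL _)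
      (slash_mapGL_cuspForm f γ.2), coeff_smul]
    rfl

theorem perCoeff_apply (N n : ℕ) (γ : Gamma0 N) (j : ℕ)
    (f : CuspForm (Gamma0 N) ((n : ℤ) + 2)) :
    perCoeff N n γ j f = (perPoly n (f : ℍ → ℂ) (mapGL ℝ (γ : SL(2, ℤ)))).coeff j := rfl

/-- The lattice of period functionals. -/
noncomputable def perLattice (N n : ℕ) :
    Submodule ℤ (Module.Dual ℂ (CuspForm (Gamma0 N) ((n : ℤ) + 2))) :=
  Submodule.span ℤ (Set.range fun x : Gamma0 N × Fin (n + 1) ↦ perCoeff N n x.1 x.2)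

theorem perCoeff_mem_perLattice (N n : ℕ) (γ : Gamma0 N) {j : ℕ} (hj : j < n + 1) :
    perCoeff N n γ j ∈ perLattice N n :=
  Submodule.subset_span ⟨(γ, ⟨j, hj⟩), rfl⟩

theorem perCoeff_mul (N n : ℕ) (γ₁ γ₂ : Gamma0 N) (j : ℕ) :
    perCoeff N n (γ₁ * γ₂) j =
      (∑ l : Fin (n + 1), polyActZ n ((γ₂ : SL(2, ℤ)) 0 0) ((γ₂ : SL(2, ℤ)) 0 1)
        ((γ₂ : SL(2, ℤ)) 1 0) ((γ₂ : SL(2, ℤ)) 1 1) l j • perCoeff N n γ₁ l) +
        perCoeff N n γ₂ j := by
  ext f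
  simp only [LinearMap.add_apply, LinearMap.sum_apply, LinearMap.smul_apply, perCoeff_apply,
    Subgroup.coe_mul, map_mul]
  rw [perPoly_mul n (isCuspPer_cuspForm f) (det_mapGL _) (det_mapGL _)
    (slash_mapGL_cuspForm f γ₁.2) (slash_mapGL_cuspForm f γ₂.2), coeff_add, polyActG_mapGL,
    coeff_polyAct_intCast, Fin.sum_univ_eq_sum_range
      (fun l ↦ polyActZ n ((γ₂ : SL(2, ℤ)) 0 0) ((γ₂ : SL(2, ℤ)) 0 1)
        ((γ₂ : SL(2, ℤ)) 1 0) ((γ₂ : SL(2, ℤ)) 1 1) l j •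
          (perPoly n (f : ℍ → ℂ) (mapGL ℝ (γ₁ : SL(2, ℤ)))).coeff l) (n + 1)]
  simp only [zsmul_eq_mul]

theorem perCoeff_one (N n : ℕ) (j : ℕ) : perCoeff N n 1 j = 0 := by
  ext f
  simp only [perCoeff_apply, OneMemClass.coe_one, map_one, perPoly_one, coeff_zero,
    LinearMap.zero_apply]

theorem perLattice_fg (N n : ℕ) [NeZero N] : (perLattice N n).FG := by
  have : Group.FG (Gamma0 N) := H75.fg_Gamma0 N
  exact H75.fg_span_of_cocycle
    (fun (γ : Gamma0 N) (j l : Fin (n + 1)) ↦ polyActZ n ((γ : SL(2, ℤ)) 0 0)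
      ((γ : SL(2, ℤ)) 0 1) ((γ : SL(2, ℤ)) 1 0) ((γ : SL(2, ℤ)) 1 1) l j)
    (fun (γ : Gamma0 N) (j : Fin (n + 1)) ↦ perCoeff N n γ j)
    (fun j ↦ perCoeff_one N n j) (fun γ₁ γ₂ j ↦ perCoeff_mul N n γ₁ γ₂ j)

end Fermat.Agent.S22.H50
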