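import Mathlib
import Fermat.Prelude.Def_CuspForm_HeckeAlgebra
import Fermat.Prelude.Thm_ModularForm_heckeT_slash_eq_self_of_mem_Gamma0
import Fermat.Agent.S22.H50.Lattice

/-!
# The lattice of period functionals is stable under the Hecke operators
-/

open UpperHalfPlane hiding I
open Complex Filter Function Metric Polynomial
open scoped Real Topology Manifold MatrixGroups ModularForm
open Derivative CongruenceSubgroup Matrix.SpecialLinearGroup
open P2MW.S_ModularForm_heckeT_slash_eq_self_of_mem_Gamma0.ModularForm.HeckeSlashInvariance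

set_option autoImplicit false

namespace Fermat.Agent.S22.H50

theorem polyFun_sum {ι : Type*} (s : Finset ι) (p : ι → ℂ[X]) :
    polyFun (∑ x ∈ s, p x) = ∑ x ∈ s, polyFun (p x) := by
  funext z
  simp [polyFun, eval_finsetSum]

theorem sub_slash' (k : ℤ) (g : GL (Fin 2) ℝ) (F G : ℍ → ℂ) :
    (F - G) ∣[k] g = F ∣[k] g - G ∣[k] g := by
  simp only [sub_eq_add_neg, SlashAction.add_slash, SlashAction.neg_slash]

/-- The abstract transfer identity behind the Hecke-stability of invariance. -/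
theorem sum_slash_transfer {ι : Type*} [Fintype ι] (κ : ℤ) (F : ℍ → ℂ)
    (δ : ι → GL (Fin 2) ℝ) (pm : Equiv.Perm ι) (G : GL (Fin 2) ℝ) (G' : ι → GL (Fin 2) ℝ)
    (hmul : ∀ x, δ x * G = G' x * δ (pm x)) :
    (∑ x, F ∣[κ] δ x) ∣[κ] G - ∑ x, F ∣[κ] δ x = ∑ x, (F ∣[κ] G' x - F) ∣[κ] δ (pm x) := by
  rw [SlashAction.sum_slash, ← Equiv.sum_comp pm (fun x ↦ F ∣[κ] δ x), ← Finset.sum_sub_distrib]
  refine Finset.sum_congr rfl fun x _ ↦ ?_
  rw [← SlashAction.slash_mul, hmul x, SlashAction.slash_mul, sub_slash']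

/-- Period polynomials of a function whose Eichler integral is a sum of translates. -/
theorem perPoly_transfer {ι : Type*} [Fintype ι] (n : ℕ) {f Tf : ℍ → ℂ} (hf : IsCuspPer 1 f)
    (δ : ι → GL (Fin 2) ℝ) (pm : Equiv.Perm ι) (G : GL (Fin 2) ℝ) (G' : ι → GL (Fin 2) ℝ)
    {q : ℝ} (hq : 0 < q) (hδ : ∀ x, (δ x).val.det = q) (hG : 0 < G.val.det)
    (hG' : ∀ x, (G' x).val.det = 1) (hinv : ∀ x, f ∣[(n : ℤ) + 2] G' x = f)
    (hmul : ∀ x, δ x * G = G' x * δ (pm x))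
    (hTf : eint 1 (n + 1) Tf = (q : ℂ) ^ (n + 1) • ∑ x, eint 1 (n + 1) f ∣[-(n : ℤ)] δ x) :
    perPoly n Tf G = ∑ x, polyActG n (δ (pm x)) (perPoly n f (G' x)) := by
  apply perPoly_eq
  have hq' : (q : ℂ) ≠ 0 := Complex.ofReal_ne_zero.mpr hq.ne'
  rw [perFun, hTf, smul_slash_of_det_pos hG, ← smul_sub,
    sum_slash_transfer _ _ δ pm G G' hmul, polyFun_sum, Finset.smul_sum]
  refine Finset.sum_congr rfl fun x _ ↦ ?_
  have h1 : eint 1 (n + 1) f ∣[-(n : ℤ)] G' x - eint 1 (n + 1) f = polyFun (perPoly n f (G' x)) :=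
    (polyFun_perPoly n hf (hG' x) (hinv x)).symm
  rw [h1, polyFun_slash (by rw [hδ]; exact hq) n (natDegree_perPoly_le n hf (hG' x) (hinv x)),
    hδ, smul_smul, ← mul_pow, mul_inv_cancel₀ hq', one_pow, one_smul]

/-- Abstract stability criterion for the lattice of period functionals. -/
theorem comp_mem_perLattice {N n : ℕ} (T : Module.End ℂ (CuspForm (Gamma0 N) ((n : ℤ) + 2)))
    {ι : Type*} [Fintype ι]
    (H : ∀ γ : Gamma0 N, ∃ (γ' : ι → Gamma0 N) (a b c d : ι → ℤ),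
      ∀ f : CuspForm (Gamma0 N) ((n : ℤ) + 2),
        perPoly n (T f : ℍ → ℂ) (mapGL ℝ (γ : SL(2, ℤ))) =
          ∑ x, polyAct n (a x) (b x) (c x) (d x)
            (perPoly n (f : ℍ → ℂ) (mapGL ℝ (γ' x : SL(2, ℤ))))) :
    ∀ l ∈ perLattice N n, l ∘ₗ T ∈ perLattice N n := by
  intro l hl
  induction hl using Submodule.span_induction with
  | mem l hl =>
    obtain ⟨⟨γ, j⟩, rfl⟩ := hl
    obtain ⟨γ', a, b, c, d, h⟩ := H γ
    have key : perCoeff N n γ j ∘ₗ T =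
        ∑ x, ∑ i : Fin (n + 1), polyActZ n (a x) (b x) (c x) (d x) i j • perCoeff N n (γ' x) i := by
      ext f
      simp only [LinearMap.comp_apply, LinearMap.sum_apply, LinearMap.smul_apply, perCoeff_apply,
        h f, finsetSum_coeff, coeff_polyAct_intCast, zsmul_eq_mul]
      refine Finset.sum_congr rfl fun x _ ↦ ?_
      rw [Fin.sum_univ_eq_sum_range
        (fun i ↦ (polyActZ n (a x) (b x) (c x) (d x) i j : ℂ) *
          (perPoly n (f : ℍ → ℂ) (mapGL ℝ (γ' x : SL(2, ℤ)))).coeff i) (n + 1)]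
    rw [key]
    exact Submodule.sum_mem _ fun x _ ↦ Submodule.sum_mem _ fun i _ ↦
      Submodule.smul_mem _ _ (perCoeff_mem_perLattice N n (γ' x) i.2)
  | zero => simp
  | add l₁ l₂ _ _ h₁ h₂ =>
    rw [LinearMap.add_comp]
    exact Submodule.add_mem _ h₁ h₂
  | smul a l _ h =>
    rw [LinearMap.smul_comp]
    exact Submodule.smul_mem _ _ h

/-! ### The operators `T_p`, `p ∤ N` -/

open ModularForm in
theorem det_heckeRep {p : ℕ} (hp : p ≠ 0) (x : OnePoint (ZMod p)) :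
    (heckeRep p x).val.det = p := by
  induction x using OnePoint.rec with
  | infty =>
    rw [heckeRep_infty, ← Matrix.GeneralLinearGroup.val_det_apply, det_heckeDiagMatrix hp]
  | coe j =>
    rw [heckeRep_coe, ← Matrix.GeneralLinearGroup.val_det_apply, det_heckeMatrix hp]

open ModularForm in
theorem polyActG_heckeMatrix (n : ℕ) {p : ℕ} (hp : p ≠ 0) (j : ℕ) (P : ℂ[X]) :
    polyActG n (heckeMatrix p j) P =
      polyAct n ((1 : ℤ) : ℂ) ((j : ℤ) : ℂ) ((0 : ℤ) : ℂ) ((p : ℤ) : ℂ) P := by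
  simp [polyActG, val_heckeMatrix hp]

open ModularForm in
theorem polyActG_heckeRep (n : ℕ) {p : ℕ} (hp : p ≠ 0) (x : OnePoint (ZMod p)) :
    ∃ a b c d : ℤ, ∀ P : ℂ[X], polyActG n (heckeRep p x) P = polyAct n a b c d P := by
  induction x using OnePoint.rec with
  | infty =>
    refine ⟨p, 0, 0, 1, fun P ↦ ?_⟩
    simp [polyActG, heckeRep_infty, val_heckeDiagMatrix hp]
  | coe j =>
    refine ⟨1, j.val, 0, p, fun P ↦ ?_⟩
    simp [polyActG, heckeRep_coe, val_heckeMatrix hp]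

theorem perLattice_comp_heckeTLin {N n : ℕ} {p : ℕ} (hp : p.Prime) (hpN : ¬ p ∣ N) :
    ∀ l ∈ perLattice N n, l ∘ₗ CuspForm.heckeTLin ((n : ℤ) + 2) hp hpN ∈ perLattice N n := by
  have : Fact p.Prime := ⟨hp⟩
  have hp0 : p ≠ 0 := hp.ne_zero
  refine comp_mem_perLattice (ι := OnePoint (ZMod p)) _ fun γ ↦ ?_
  have hcN : (N : ℤ) ∣ (γ : SL(2, ℤ)) 1 0 :=
    (ZMod.intCast_zmod_eq_zero_iff_dvd _ _).mp (Gamma0_mem.mp γ.2)
  choose g' hg'N hmul using fun x ↦ heckeRep_mul hpN (γ : SL(2, ℤ)) hcN x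
  have hg'mem : ∀ x, g' x ∈ Gamma0 N := fun x ↦
    Gamma0_mem.mpr ((ZMod.intCast_zmod_eq_zero_iff_dvd _ _).mpr (hg'N x))
  choose a b c d habcd using fun x ↦ polyActG_heckeRep n hp0 x
  set pm : Equiv.Perm (OnePoint (ZMod p)) := MulAction.toPerm (redMatrix p (γ : SL(2, ℤ)))
    with hpmdef
  refine ⟨fun x ↦ ⟨g' x, hg'mem x⟩, fun x ↦ a (pm x), fun x ↦ b (pm x), fun x ↦ c (pm x),
    fun x ↦ d (pm x), fun f ↦ ?_⟩
  have hf := isCuspPer_cuspForm f
  have hTf : eint 1 (n + 1) (ModularForm.heckeT ((n : ℤ) + 2) p (f : ℍ → ℂ)) =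
      ((p : ℝ) : ℂ) ^ (n + 1) •
        ∑ x, eint 1 (n + 1) (f : ℍ → ℂ) ∣[-(n : ℤ)] heckeRep p x := by
    rw [eint_heckeT n hp0 hf, heckeT_eq_sum_onePoint]
    simp
  have := perPoly_transfer n hf (heckeRep p) pm (mapGL ℝ (γ : SL(2, ℤ)))
    (fun x ↦ mapGL ℝ (g' x)) (q := p) (by exact_mod_cast hp.pos) (det_heckeRep hp0)
    (by rw [det_mapGL]; exact one_pos) (fun x ↦ det_mapGL _)
    (fun x ↦ slash_mapGL_cuspForm f (hg'mem x)) hmul hTf
  rw [CuspForm.coe_heckeTLin_apply, this]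
  exact Finset.sum_congr rfl fun x _ ↦ habcd (pm x) _

/-! ### The operators `U_q`, `q ∣ N` -/

open ModularForm in
theorem perLattice_comp_heckeULin {N n : ℕ} [NeZero N] {q : ℕ} (hq : q.Prime) (hqN : q ∣ N) :
    ∀ l ∈ perLattice N n, l ∘ₗ CuspForm.heckeULin ((n : ℤ) + 2) hqN ∈ perLattice N n := by
  have : NeZero q := ⟨hq.ne_zero⟩
  have hq0 : q ≠ 0 := hq.ne_zero
  refine comp_mem_perLattice (ι := ZMod q) _ fun γ ↦ ?_
  have hcN : (N : ℤ) ∣ (γ : SL(2, ℤ)) 1 0 :=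
    (ZMod.intCast_zmod_eq_zero_iff_dvd _ _).mp (Gamma0_mem.mp γ.2)
  have hc : (q : ℤ) ∣ (γ : SL(2, ℤ)) 1 0 := (Int.natCast_dvd_natCast.mpr hqN).trans hcN
  choose g' hg' hmul using fun x ↦ heckeMatrix_mul_of_dvd (γ : SL(2, ℤ)) hc x
  have hg'mem : ∀ x, g' x ∈ Gamma0 N := fun x ↦ by
    rw [Gamma0_mem, hg' x]
    push_cast
    rw [Gamma0_mem.mp γ.2, mul_zero]
  set pm : Equiv.Perm (ZMod q) :=
    affinePerm (γ : SL(2, ℤ)) ((ZMod.intCast_zmod_eq_zero_iff_dvd _ _).mpr hc) with hpmdef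
  refine ⟨fun x ↦ ⟨g' x, hg'mem x⟩, fun _ ↦ 1, fun x ↦ ((pm x).val : ℤ), fun _ ↦ 0,
    fun _ ↦ (q : ℤ), fun f ↦ ?_⟩
  have hf := isCuspPer_cuspForm f
  have hTf : eint 1 (n + 1) (ModularForm.heckeU ((n : ℤ) + 2) q (f : ℍ → ℂ)) =
      ((q : ℝ) : ℂ) ^ (n + 1) •
        ∑ x : ZMod q, eint 1 (n + 1) (f : ℍ → ℂ) ∣[-(n : ℤ)] heckeMatrix q x.val := by
    rw [eint_heckeU n hq0 hf, heckeU_eq_sum_zmod]
    simp
  have := perPoly_transfer n hf (fun x : ZMod q ↦ heckeMatrix q x.val) pm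
    (mapGL ℝ (γ : SL(2, ℤ))) (fun x ↦ mapGL ℝ (g' x)) (q := q) (by exact_mod_cast hq.pos)
    (fun x ↦ by rw [← Matrix.GeneralLinearGroup.val_det_apply, det_heckeMatrix hq0])
    (by rw [det_mapGL]; exact one_pos) (fun x ↦ det_mapGL _)
    (fun x ↦ slash_mapGL_cuspForm f (hg'mem x)) hmul hTf
  rw [CuspForm.coe_heckeULin_apply, this]
  exact Finset.sum_congr rfl fun x _ ↦ polyActG_heckeMatrix n hq0 _ _

end Fermat.Agent.S22.H50
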