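import Mathlib
import Fermat.Prelude.Def_CuspForm_HeckeAlgebra
import Fermat.Agent.S22.H50.HeckeStable
import Fermat.Agent.S22.H62.Separation
import Fermat.Agent.S22.H75.HeckeAssembly
import Fermat.Agent.S22.H75.TrivialLeOne

/-!
# Finiteness of the Hecke algebra of `S_k(Γ₀(N))` over `ℤ`

The lattice of period functionals is finitely generated, Hecke-stable and separates cusp forms.
-/

open UpperHalfPlane hiding I
open Complex Filter Function Metric Polynomial
open scoped Real Topology Manifold MatrixGroups ModularForm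
open Derivative CongruenceSubgroup Matrix.SpecialLinearGroup

set_option autoImplicit false

namespace Fermat.Agent.S22.H50

/-- The period functionals separate the cusp forms. -/
theorem perLattice_sep (N n : ℕ) [NeZero N] (f : CuspForm (Gamma0 N) ((n : ℤ) + 2))
    (h : ∀ l ∈ perLattice N n, l f = 0) : f = 0 := by
  have hf := isCuspPer_cuspForm f
  obtain ⟨h1, h2⟩ := eint_spec one_pos (n + 1) hf
  refine H62.separation_core N n f (eint 1 (n + 1) (f : ℍ → ℂ)) h1.hol h2 fun γ hγ ↦ ?_
  have hdeg := natDegree_perPoly_le n hf (det_mapGL γ) (slash_mapGL_cuspForm f hγ)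
  have hP : perPoly n (f : ℍ → ℂ) (mapGL ℝ γ) = 0 := by
    ext j
    rw [coeff_zero]
    by_cases hj : j < n + 1
    · exact h _ (perCoeff_mem_perLattice N n ⟨γ, hγ⟩ hj)
    · exact coeff_eq_zero_of_natDegree_lt (lt_of_le_of_lt hdeg (by omega))
  have h3 := polyFun_perPoly n hf (det_mapGL γ) (slash_mapGL_cuspForm f hγ)
  rw [hP, polyFun_zero, perFun] at h3
  exact sub_eq_zero.mp h3.symm

/-- **The Hecke algebra of `S_k(Γ₀(N))` is a finitely generated `ℤ`-module.** -/
theorem moduleFinite_heckeAlgebra (N : ℕ) [NeZero N] (k : ℤ) (S : Set ℕ) :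
    Module.Finite ℤ (CuspForm.heckeAlgebra N k S) := by
  by_cases hk : k ≤ 1
  · exact H75.finite_heckeAlgebra_of_weight_le_one N k S hk
  · obtain ⟨n, rfl⟩ : ∃ n : ℕ, k = (n : ℤ) + 2 := ⟨(k - 2).toNat, by omega⟩
    exact H75.finite_heckeAlgebra_of_lattice N _ S (perLattice N n) (perLattice_fg N n)
      (perLattice_sep N n) (fun ℓ hℓ hℓN ↦ perLattice_comp_heckeTLin hℓ hℓN)
      (fun q hqN hq ↦ perLattice_comp_heckeULin hq hqN)

end Fermat.Agent.S22.H50
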